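/-
GATE-N / S48-PORT-PLUGTEST (helper69), part P2: the `hK`, `hG` binders of
`DS/P5/PortAsm.portExport1_of_leaves` at `F₀ := F1 M` from
* `D : WeberData M` (P1 analytic, helper71/helper30 `RealizeF1`),
* the Igusa degree statement at `jM = j(q^M)` (helper87 IG, consumed by helper22 `ChartBridge`).
-/
import Mathlib
import Fermat.Agent.DS.P1.RealizeF1
import Fermat.Agent.DS.P2.K18sPort
import Fermat.Agent.DS.P2.K18s1OfIgusa

set_option autoImplicit false
set_option linter.style.haveILetI false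

noncomputable section

namespace Fermat.Agent.DS.Port.PlugP2

open IsLocalRing IntermediateField AlgebraicCurve ModularCurve
open Fermat.Agent.S24 Fermat.Agent.GJ.J1 Fermat.Agent.GJ.J1.Val Fermat.Agent.DS.P0
open Fermat.Agent.DS.P2.GaussF1 Fermat.Agent.DS.P2.KGen
open Fermat.Agent.DS.P1.RealizeF1

local notation "Kbar" => AlgebraicClosure ℚ

variable {M : ℕ} [NeZero M]

/-- **The Igusa degree statement** at the chart `jM = j(q^M)` for `ℚ̄(X₁(M))` at one valuation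
subring (the `hIG` binder of helper22's `ChartBridge.hdeg_j1_of_hdeg_jM`, = the END of helper87 /
helper92 IG-6 / P2-IG-DEG). -/
def IgusaDeg (M : ℕ) [NeZero M] (A : ValuationSubring Kbar) : Prop :=
  Module.finrank Kbar⟮genJ1 Kbar A M (dvd_refl M)⟯ (F1C Kbar M) ≤
    Module.finrank
      (ResidueField A)⟮(redData1C Kbar A M).red
        ⟨genJ1 Kbar A M (dvd_refl M), genJ1_mem_Rw1C Kbar A M _⟩⟯
      (Fres1C Kbar A M)

/-- **`hK` of the port from `WeberData` + Igusa.** -/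
theorem hK_of_weberData_igusa (D : WeberData M) {ℓ : ℕ} (hℓ : ℓ.Prime) (hℓM : ¬ ℓ ∣ M)
    (h2 : ℓ = 2 → 3 ∣ M) (h3 : ℓ = 3 → 2 ∣ M)
    (hIG : ∀ A : ValuationSubring Kbar, A.LiesOverPrime ℓ → IgusaDeg M A)
    {p : ℕ} (hp : ¬ ℓ ∣ p) :
    ∀ A : ValuationSubring Kbar, A.LiesOverPrime ℓ → Fermat.Agent.DS.P4.K18sG (F1 M) A p := by
  haveI : Fact ℓ.Prime := ⟨hℓ⟩
  haveI : IsGen Kbar (j1K M) := isGen_j1 D
  exact Fermat.Agent.DS.P2.K18sPort.hK_F1_of_jRam M h2 h3 (j1K M) (j1K M)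
    (by
      show qExpand Kbar 1 (jqModC Kbar) = jqModC Kbar
      exact qExpand_one_apply _)
    (jRam_F1 D)
    (fun A hA => Fermat.Agent.DS.P2.ChartBridge.hdeg_j1_of_hdeg_jM M A hℓM hA (hIG A hA)) hp

/-- `hG` of the port, unconditional (helper45/helper96). -/
theorem hG_F1 (ℓ : ℕ) :
    ∀ A : ValuationSubring Kbar, A.LiesOverPrime ℓ →
      Fermat.Agent.DS.P4.GaussFracSeriesG (F1 M) A :=
  Fermat.Agent.DS.P2.K18sPort.hG_F1 M ℓ

end Fermat.Agent.DS.Port.PlugP2
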