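/-
GATE-N / S48-PORT-PLUGTEST (helper69), part P3: helper94's `EigFinalHyp.eig1Rel_of_hyps`
INSTANTIATED at `Γ := Γ₁(M)` with helper42's final triple, calling the landed leaves

* LAT   : helper19/helper70 `Lat.lat1_export_thm` (unconditional),
* (K4)  : helper49 `HeckeMerTriple.hK4T`, `hK4D`,
* COH1  : helper42 `Coh1.cohT1_isParabolicHom`, `diaCoh_isParabolicHom`,
* DESC  : helper94 `EigDescG.exQ_of`, `pDivQ_of`, `satQ_of` + helper49 `Desc1G` (generic `F₀`),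

for an ARBITRARY `F₀ ⊂ ℚ((q))` with a realisation `realC : F₀ ⊗ ℂ →+* Mer`.  Named hypotheses =
the statements over `ℂ` (`hinvC`, `SatG`, `ExG`, `PDivG`), the generator / order / finiteness inputs
of the descent, and the two bridges (HN) (`hHNT` = HN1Q1, `hHND` = (P1e)).  Output: P5's
`PortExport1.EIG1Prime F₀ p dia`.
-/
import Mathlib
import Fermat.Agent.DS.P3.EigFinalHyp
import Fermat.Agent.DS.P3.Lat.LatFinal
import Fermat.Agent.DS.P3.HeckeMerTriple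
import Fermat.Agent.DS.P3.Desc1G
import Fermat.Agent.DS.P5.PortExport1

set_option autoImplicit false
set_option linter.style.haveILetI false
set_option linter.unusedSectionVars false

open UpperHalfPlane Complex AlgebraicCurve ModularCurve TensorProduct CongruenceSubgroup
  ModularCurve.Period
open scoped MatrixGroups

noncomputable section

namespace Fermat.Agent.DS.Port.PlugP3

open Fermat.Agent.S24 Fermat.Agent.S24_helper82 Fermat.Agent.GJ.HeckeMer Fermat.Agent.GJ.KumGroup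
open Fermat.Agent.DS.P3.KumCoreG Fermat.Agent.DS.P3.EigAsmG Fermat.Agent.DS.P3.EigDescG
open Fermat.Agent.DS.P3.EigFinalHyp Fermat.Agent.DS.P3.Desc1G
open Fermat.Agent.DS.Hecke Fermat.Agent.DS.P3
open Fermat.Agent.DS.P5 Fermat.Agent.DS.P5.KumType1 Fermat.Agent.DS.P5.Final
  Fermat.Agent.DS.P5.PortExport1

attribute [local instance] Fermat.Agent.GJ.EigAsm.algKbC

variable {M : ℕ} [NeZero M] {p : ℕ} [Fact p.Prime]
  {F₀ : IntermediateField ℚ (LaurentSeries ℚ)}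

/-- a primitive `p`-th root of unity in `FL F₀` -/
theorem exists_primitiveRoot_FL (F₀ : IntermediateField ℚ (LaurentSeries ℚ)) (p : ℕ)
    [Fact p.Prime] : ∃ ξ : FL F₀, IsPrimitiveRoot ξ p := by
  haveI : NeZero p := ⟨(Fact.out : p.Prime).ne_zero⟩
  haveI : CharZero Kb := charZero_of_injective_algebraMap (algebraMap ℚ Kb).injective
  haveI : NeZero ((p : ℕ) : Kb) := ⟨Nat.cast_ne_zero.mpr (NeZero.ne p)⟩
  obtain ⟨ξ, hξ⟩ := HasEnoughRootsOfUnity.exists_primitiveRoot Kb p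
  exact ⟨algebraMap Kb (FL F₀) ξ, hξ.map_of_injective (algebraMap Kb (FL F₀)).injective⟩

/-- the dual eigenvalue `θ(T_ℓ) · θ(⟨ℓ⟩⁻¹)` in helper70's spelling -/
def aTriple (θ : heckeAlgebra1 M 2 (∅ : Set ℕ) →+* ZMod p) (ℓ : ℕ) : ZMod p := by
  classical
  exact if h : ℓ.Prime ∧ ¬ ℓ ∣ M then
    θ (heckeAlgebra1.T h.1 h.2 (Set.notMem_empty ℓ)) *
      θ (heckeAlgebra1.D (@Coh1.unitOf M ℓ ⟨h.1⟩ h.2)⁻¹)
  else 0

theorem aTriple_eq (θ : heckeAlgebra1 M 2 (∅ : Set ℕ) →+* ZMod p) {ℓ : ℕ} (hℓ : ℓ.Prime)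
    (hℓM : ¬ ℓ ∣ M) :
    aTriple θ ℓ = θ (heckeAlgebra1.T hℓ hℓM (Set.notMem_empty ℓ)) *
      θ (heckeAlgebra1.D (@Coh1.unitOf M ℓ ⟨hℓ⟩ hℓM)⁻¹) := by
  classical
  unfold aTriple
  rw [dif_pos ⟨hℓ, hℓM⟩]

theorem D_inv_mul (θ : heckeAlgebra1 M 2 (∅ : Set ℕ) →+* ZMod p) (d : (ZMod M)ˣ) :
    θ (heckeAlgebra1.D d⁻¹) * θ (heckeAlgebra1.D d) = 1 := by
  have h : (heckeAlgebra1.D d⁻¹ : heckeAlgebra1 M 2 (∅ : Set ℕ)) * heckeAlgebra1.D d = 1 := by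
    have := map_mul (heckeAlgebra1.DHom : (ZMod M)ˣ →* heckeAlgebra1 M 2 (∅ : Set ℕ)) d⁻¹ d
    rw [inv_mul_cancel, map_one] at this
    exact this.symm
  rw [← map_mul, h, map_one]

/-- **(EIG1) at the prime field from the leaves of P3** (hypothesis form, generic `F₀`). -/
theorem eig1Prime_of_hyps (dia : (ZMod M)ˣ → (FL F₀ ≃ₐ[Kb] FL F₀))
    (realC : ↥(laurentBaseChange ℂ F₀) →+* Mer) {ζ : ℂ} (hζ : IsPrimitiveRoot ζ p)
    (hinvC : ∀ (γ : Gamma1 M) (f : ↥(laurentBaseChange ℂ F₀)),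
      compM (γ : SL(2, ℤ)) (realC f) = realC f)
    (hS : SatG (Gamma1 M) p realC)
    (hE : ExG (Gamma1 M) p realC ζ (fun ψ => IsParabolicHom (Gamma1 M) ψ))
    (hP : PDivG (Gamma1 M) p (K := ℂ) realC ζ (fun ψ => IsParabolicHom (Gamma1 M) ψ))
    (x₀ : FL F₀) [IsGen Kb x₀] (hq : ∃ f ∈ F₀, f.order ≠ 0)
    (hfin : Finite (Kum ℂ ↥(laurentBaseChange ℂ F₀) p))
    (hHNT : ∀ (ℓ : ℕ) (hℓ : ℓ.Prime) (hℓMp : ¬ ℓ ∣ M * p) (u : FL F₀), u ≠ 0 →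
      ∃ Tu : FL F₀,
        ((Tu : FL F₀) : LaurentSeries Kb) =
          @hn1Series F₀ ℓ ⟨hℓ.ne_zero⟩ (diaP dia hℓ (not_dvd_left_of_not_dvd_mul hℓMp)) u ∧
        realQ (bcG F₀) realC Tu =
          @HeckeMerTriple.merT M _ ℓ ⟨hℓ⟩ (not_dvd_left_of_not_dvd_mul hℓMp)
            (realQ (bcG F₀) realC u))
    (hHND : ∀ (d : (ZMod M)ˣ) (u : FL F₀),
      realQ (bcG F₀) realC (dia d u) = HeckeMerTriple.merD d (realQ (bcG F₀) realC u)) :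
    EIG1Prime F₀ p dia := by
  classical
  haveI : NeZero p := ⟨(Fact.out : p.Prime).ne_zero⟩
  intro θ
  obtain ⟨ξ, hξ⟩ := exists_primitiveRoot_FL F₀ p
  obtain ⟨χ, hχ0, hχpar, hχT, hχD⟩ := Lat.lat1_export_thm (M := M) p (∅ : Set ℕ) θ
  refine ⟨aTriple θ, ?_, ?_⟩
  · intro q hq hqM hqS
    rw [aTriple_eq θ hq hqM, mul_assoc]
    have h1 : (@Coh1.unitOf M q ⟨hq⟩ hqM) = unitOfPrime hq hqM := rfl
    rw [h1, D_inv_mul, mul_one]
  · refine eig1Rel_of_hyps (F₀ := F₀) (p := p) (dia := dia) (Γ := Gamma1 M) (k0 := ZMod p)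
      (realQ (bcG F₀) realC) hζ (compM_realQ hinvC)
      (satQ_of hS (isPowDescG F₀ p) hξ) χ hχ0 (fun ψ => IsParabolicHom (Gamma1 M) ψ)
      (fun f => hχpar f)
      (exQ_of hinvC hE hP (descPG F₀ p x₀ hq hfin)) (pDivQ_of hP (d1G F₀ p x₀))
      -- Hecke operators
      (fun ℓ ψ => @Coh1.cohT1 M _ (ZMod p) _ ℓ.1 ⟨ℓ.2.1⟩ (not_dvd_left_of_not_dvd_mul ℓ.2.2)
        (Coh1.diaCoh (ZMod p)
          (@Coh1.unitOf M ℓ.1 ⟨ℓ.2.1⟩ (not_dvd_left_of_not_dvd_mul ℓ.2.2))⁻¹ ψ))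
      (fun ℓ ψ hψ => @Coh1.cohT1_isParabolicHom M _ (ZMod p) _ ℓ.1 ⟨ℓ.2.1⟩ _ _
        (Coh1.diaCoh_isParabolicHom _ ψ hψ))
      (fun ℓ h => @HeckeMerTriple.merT M _ ℓ.1 ⟨ℓ.2.1⟩ (not_dvd_left_of_not_dvd_mul ℓ.2.2) h)
      (fun ℓ ψ h u Tu D hTu =>
        @HeckeMerTriple.hK4T M _ p _ ℓ.1 ⟨ℓ.2.1⟩ (not_dvd_left_of_not_dvd_mul ℓ.2.2) _ _ _ ζ
          (hζ.pow_eq_one) ψ h u Tu D hTu)
      (fun ℓ u hu => hHNT ℓ.1 ℓ.2.1 ℓ.2.2 u hu)
      (aTriple θ)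
      (fun ℓ f g => by
        rw [aTriple_eq θ ℓ.2.1 (not_dvd_left_of_not_dvd_mul ℓ.2.2)]
        exact hχT ℓ.1 ℓ.2.1 (not_dvd_left_of_not_dvd_mul ℓ.2.2) (Set.notMem_empty _) f g)
      -- diamonds
      (fun d ψ => Coh1.diaCoh (ZMod p) d⁻¹ ψ)
      (fun d ψ hψ => Coh1.diaCoh_isParabolicHom _ ψ hψ)
      (fun d h => HeckeMerTriple.merD d h)
      (fun d ψ h u Du D hDu => HeckeMerTriple.hK4D d ψ h u Du D hDu)
      hHND
      (chiOf θ)⁻¹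
      (fun d f g => by
        have h := hχD d f g
        rw [h]
        congr 2)

end Fermat.Agent.DS.Port.PlugP3
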