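/-
GATE-N / S48-PORT-PLUGTEST (helper69): **the whole `Γ₁(M)` port as ONE term in its OPEN leaves.**

`portExport1_of_open_leaves` proves `N3.Theta.PortExport1 M p` (the `hPort` binder of helper4's
`DS/N3/Main.exists_rhobar_of_port` / `GateModL.gateModL_of_port`) for `F₀ := F1 M` from

* P1 analytic   `D : WeberData M`                                   (helper71/helper30)
* P2 Igusa      `IgusaDeg M A` for `A ∣ ℓ`, `ℓ ∤ M p`               (helper87/helper92/helper40)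
* P3 DICT       `IntDict`, `CuspDict`, `E1` for `realC D`            (helper5, helper16/helper80)
* the diamond family `dia` on `FL (F1 M)` with
    (DIA-GAL) `DiaComm`, (DIA-INT) `P4.DiaInt`, (P1e) `hHND`        (helper45 DiaF1 / helper67)
* P3 HN1Q1      `hHNT` (membership + analytic bridge)               (helper62/helper86/helper42)
* P4            `HNMem1`, `HNDiv1`                                   (helper62, helper17/helper49)

calling every landed piece: `RealizeF1` → `ChartBridge` → `K18sPort` → `P4/ESGen` → `P5`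
(`PlugP2`, `PortAsm`), and `LatFinal`, `HeckeMerTriple`, `Coh1`, `EigFinalHyp`, `EigDescG`,
`Desc1G`, `FinC1`, `PDiv1Plug`, `TwEisG/Field` (`PlugP3`).
-/
import Mathlib
import Fermat.Agent.DS.Port.PlugP2
import Fermat.Agent.DS.Port.PlugP3
import Fermat.Agent.DS.P5.PortAsm
import Fermat.Agent.DS.P3.FinC1
import Fermat.Agent.DS.P3.PDiv1Plug
import Fermat.Agent.DS.P3.TwEisG.Field

set_option autoImplicit false
set_option linter.style.haveILetI false
set_option linter.unusedSectionVars false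

open UpperHalfPlane Complex AlgebraicCurve ModularCurve TensorProduct CongruenceSubgroup
  ModularCurve.Period
open scoped MatrixGroups

noncomputable section

namespace Fermat.Agent.DS.Port.PlugTest

open Fermat.Agent.S24 Fermat.Agent.S24_helper82 Fermat.Agent.GJ.HeckeMer Fermat.Agent.GJ.KumGroup
open Fermat.Agent.DS.P0 Fermat.Agent.DS.P1.RealizeF1
open Fermat.Agent.DS.P3.KumCoreG Fermat.Agent.DS.P3.EigAsmG Fermat.Agent.DS.P3.EigDescG
open Fermat.Agent.DS.P3.Desc1G Fermat.Agent.DS.P3.PDiv1 Fermat.Agent.DS.P3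
open Fermat.Agent.DS.P5 Fermat.Agent.DS.P5.KumType1 Fermat.Agent.DS.P5.PortExport1
open Fermat.Agent.DS.Port.PlugP2 Fermat.Agent.DS.Port.PlugP3

/-! ### Transport along `laurentBaseChange L (F1 M) = F1C L M` -/

theorem isGen_equivOfEq {K L : Type*} [Field K] [Field L] [Algebra K L]
    {F F' : IntermediateField K L} (h : F = F') (x : F) [hx : IsGen K x] :
    IsGen K (IntermediateField.equivOfEq h x) := by
  subst h
  have : IntermediateField.equivOfEq (rfl : F = F) x = x := by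
    rw [IntermediateField.equivOfEq_rfl]; rfl
  rw [this]
  exact hx

variable {M : ℕ} [NeZero M]

/-- `F1 M ⊗ ℂ ≃ ℂ(X₁(M))` -/
def eC (M : ℕ) [NeZero M] : ↥(laurentBaseChange ℂ (F1 M)) ≃ₐ[ℂ] ↥(F1C ℂ M) :=
  IntermediateField.equivOfEq (laurentBaseChange_F1 ℂ M)

/-- `F1 M ⊗ ℚ̄ ≃ ℚ̄(X₁(M))` -/
def eQ (M : ℕ) [NeZero M] : FL (F1 M) ≃ₐ[Kb] ↥(F1C Kb M) :=
  IntermediateField.equivOfEq (laurentBaseChange_F1 Kb M)

/-- the realisation of `F1 M ⊗ ℂ` attached to Weber data -/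
def realC (D : WeberData M) : ↥(laurentBaseChange ℂ (F1 M)) →+* Mer :=
  ((real1C D : F1C ℂ M →ₐ[ℂ] Mer) : F1C ℂ M →+* Mer).comp
    ((eC M : ↥(laurentBaseChange ℂ (F1 M)) ≃ₐ[ℂ] ↥(F1C ℂ M)) :
      ↥(laurentBaseChange ℂ (F1 M)) →+* ↥(F1C ℂ M))

theorem realC_apply (D : WeberData M) (f : ↥(laurentBaseChange ℂ (F1 M))) :
    realC D f = real1C D (eC M f) := rfl

theorem range_realC (D : WeberData M) :
    Set.range (realC D) =
      Set.range ((real1C D : F1C ℂ M →ₐ[ℂ] Mer) : F1C ℂ M →+* Mer) := by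
  ext m
  constructor
  · rintro ⟨f, rfl⟩
    exact ⟨eC M f, rfl⟩
  · rintro ⟨f, rfl⟩
    refine ⟨(eC M).symm f, ?_⟩
    rw [realC_apply, AlgEquiv.apply_symm_apply]
    rfl

/-- (INV) -/
theorem hinvC (D : WeberData M) (γ : Gamma1 M) (f : ↥(laurentBaseChange ℂ (F1 M))) :
    compM (γ : SL(2, ℤ)) (realC D f) = realC D f :=
  compM_real1C D (Fermat.Agent.DS.P1.FieldGenG.le_pm (Gamma1 M) γ.2) _

/-- (SAT) -/
theorem satC (D : WeberData M) {p : ℕ} [Fact p.Prime] : SatG (Gamma1 M) p (realC D) := by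
  intro m hm hmp
  rw [range_realC] at hmp ⊢
  exact sat1 D (Fact.out : p.Prime).pos m hm hmp

/-- (P1b) in helper94's shape -/
theorem fieldGenHolC (D : WeberData M) :
    Fermat.Agent.DS.P3.TwEisG.FieldGenHol (Gamma1 M) M (realC D) := by
  intro H hH hmg
  obtain ⟨f, hf⟩ := fieldGenHyp1 D H hH hmg
  refine ⟨(eC M).symm f, ?_⟩
  rw [realC_apply, AlgEquiv.apply_symm_apply]
  exact hf

/-- (EX) over `ℂ` -/
theorem exC (D : WeberData M) (hM : 3 ≤ M) {p : ℕ} [Fact p.Prime] {ζ : ℂ} (hζ : ζ ^ p = 1) :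
    ExG (Gamma1 M) p (realC D) ζ (fun ψ => IsParabolicHom (Gamma1 M) ψ) :=
  fun ψ hψ =>
    Fermat.Agent.DS.P3.TwEisG.exists_isKumDatumG_Gamma1 p hM (fieldGenHolC D) hζ ψ hψ

/-- the generator `j` of `FL (F1 M)` -/
def x₀ (M : ℕ) [NeZero M] : FL (F1 M) := (eQ M).symm (j1K M)

theorem isGen_x₀ (D : WeberData M) : IsGen Kb (x₀ M) := by
  haveI : IsGen Kb (j1K M) := isGen_j1 D
  exact isGen_equivOfEq (laurentBaseChange_F1 Kb M).symm (j1K M)

theorem exists_order_ne_zero_F1 (M : ℕ) [NeZero M] : ∃ f ∈ F1 M, f.order ≠ 0 := by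
  refine ⟨jqModC ℚ, jqModC_mem_F1C ℚ M, ?_⟩
  rw [Fermat.Agent.S28.order_jqModC]
  decide

/-! ### The port from its open leaves -/

/-- **The `Γ₁(M)` port from its OPEN leaves.** -/
theorem portExport1_of_open_leaves {p : ℕ} [Fact p.Prime]
    (hM4 : 4 ≤ M) (h6 : 2 ∣ M ∨ 3 ∣ M)
    -- P1 analytic
    (D : WeberData M)
    -- P2 Igusa
    (hIG : ∀ ℓ : ℕ, ℓ.Prime → ¬ ℓ ∣ M * p → ∀ A : ValuationSubring Kb, A.LiesOverPrime ℓ →
      IgusaDeg M A)
    -- P3 dictionaries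
    (jC : ↥(laurentBaseChange ℂ (F1 M)))
    (hI : IntDict (Gamma1 M) (realC D) jC) (hC : CuspDict (Gamma1 M) (realC D) jC)
    (hE1 : Fermat.Agent.DS.P3.FinC1.E1 (realC D))
    -- the diamond family
    (dia : (ZMod M)ˣ → (FL (F1 M) ≃ₐ[Kb] FL (F1 M)))
    (hdG : ∀ u, DiaComm (dia u))
    (hdI : ∀ (q : ℕ) (hq : q.Prime) (hqMp : ¬ q ∣ M * p) (A : ValuationSubring Kb),
      A.LiesOverPrime q →
        Fermat.Agent.DS.P4.DiaInt (F1 M) (diaP dia hq (not_dvd_left_of_not_dvd_mul hqMp)) A)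
    (hHND : ∀ (d : (ZMod M)ˣ) (u : FL (F1 M)),
      realQ (bcG (F1 M)) (realC D) (dia d u) =
        HeckeMerTriple.merD d (realQ (bcG (F1 M)) (realC D) u))
    -- HN1
    (hM : ∀ (q : ℕ) (hq : q.Prime) (hqM : ¬ q ∣ M), HNMem1 q (diaP dia hq hqM))
    (hD : ∀ (q : ℕ) (hq : q.Prime) (hqM : ¬ q ∣ M), HNDiv1 p q (diaP dia hq hqM))
    (hHNT : ∀ (ℓ : ℕ) (hℓ : ℓ.Prime) (hℓMp : ¬ ℓ ∣ M * p) (u : FL (F1 M)), u ≠ 0 →
      ∃ Tu : FL (F1 M),
        ((Tu : FL (F1 M)) : LaurentSeries Kb) =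
          @hn1Series (F1 M) ℓ ⟨hℓ.ne_zero⟩
            (diaP dia hℓ (not_dvd_left_of_not_dvd_mul hℓMp)) u ∧
        realQ (bcG (F1 M)) (realC D) Tu =
          @HeckeMerTriple.merT M _ ℓ ⟨hℓ⟩ (not_dvd_left_of_not_dvd_mul hℓMp)
            (realQ (bcG (F1 M)) (realC D) u)) :
    Fermat.Agent.DS.N3.Theta.PortExport1 M p := by
  haveI : NeZero p := ⟨(Fact.out : p.Prime).ne_zero⟩
  obtain ⟨ζ, hζ⟩ : ∃ ζ : ℂ, IsPrimitiveRoot ζ p :=
    ⟨_, Complex.isPrimitiveRoot_exp p (NeZero.ne p)⟩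
  haveI : IsGen Kb (x₀ M) := isGen_x₀ D
  -- P3
  have hfin : Finite (Kum ℂ ↥(laurentBaseChange ℂ (F1 M)) p) :=
    Fermat.Agent.DS.P3.FinC1.finite_kum_Gamma1 M hE1 (hinvC D) (satC D)
  have hP : PDivG (Gamma1 M) p (K := ℂ) (realC D) ζ (fun ψ => IsParabolicHom (Gamma1 M) ψ) :=
    Fermat.Agent.DS.P3.PDiv1Plug.pdivG_of_dict_Gamma1 hM4 hI hC
  have hE : EIG1Prime (F1 M) p dia :=
    eig1Prime_of_hyps dia (realC D) hζ (hinvC D) (satC D)
      (exC D (by omega) hζ.pow_eq_one) hP (x₀ M) (exists_order_ne_zero_F1 M) hfin hHNT hHND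
  -- P2 + P4 + P5
  refine Fermat.Agent.DS.P5.PortAsm.portExport1_of_leaves hdG hM hD ?_ ?_ hdI hE
  · intro q hq hqMp
    have hqM : ¬ q ∣ M := not_dvd_left_of_not_dvd_mul hqMp
    have hqp : ¬ q ∣ p := fun h => hqMp (Dvd.dvd.mul_left h M)
    refine hK_of_weberData_igusa D hq hqM ?_ ?_ (hIG q hq hqMp) hqp
    · rintro rfl
      rcases h6 with h | h
      · exact absurd h hqM
      · exact h
    · rintro rfl
      rcases h6 with h | h
      · exact h
      · exact absurd h hqM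
  · intro q _ _
    exact hG_F1 q

end Fermat.Agent.DS.Port.PlugTest
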