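/-
GATE-N / S48 J1-port, leaf S48-PORT-DIALAW-F1 (helper18): **the DIA law at `F₀ := F1 M`** — the
moduli diamonds `dia D hlaw u` of helper45 (`DS/P1/DiaF1`) act on the realisation
`PlugTest.realC D ∘ bcG (F1 M)` of `FL (F1 M)` (helper69) by `f ↦ f ∘ g`, `g ∈ Γ₀(M)`, `g₀₀ ≡ u`.

* `realC_bcG_eq` : the `ℂ`-realisation composed with the base change `ℚ̄ → ℂ` IS the
  `ℚ̄`-realisation: `realC D (bcG (F1 M) x) = real1 D (eQ M x)`;
* `diaLaw` : `realC D (bcG (dia u x)) = compM g (realC D (bcG x))`, every representative `g`;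
* `hHND_F1` : the binder `hHND` of helper69 `PlugTest.portExport1_of_open_leaves` / helper94
  `eig1Prime_F1` / helper86 `hHNT_Gamma1` VERBATIM (`merD` form);
* `hdelta_F1` : the binder `hδ` of helper86 `HNAsm.exists_hn1` (any `σ' ∈ Γ₀(M)`, `σ'₁₁·ℓ ≡ 1`);
* `hdelta_merD_F1` : the binder `hδ` of `HNAsm.exists_hn1_merT` / `hnMem1_Gamma1`;
* `diaReal_F1` : `HNDivDesc.DiaReal (dia u) (realC D) σ` for `σ ∈ Γ₀(M)`, `σ₁₁ ≡ u`
  (the binder of `HNDivDesc.hnDiv1_P5`);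
* the same at the UNCONDITIONAL instance `D := weberData M hM`, `dia := diaX1 M hM` (`1 < M`).
-/
import Mathlib
import Fermat.Agent.DS.Port.PlugTest
import Fermat.Agent.DS.P1.DiaInst
import Fermat.Agent.DS.P4.HNDivDesc
import Fermat.Agent.DS.P3.HeckeMerTriple
import Fermat.Agent.DS.P3.EigFinalF1

set_option autoImplicit false
set_option linter.unusedSectionVars false
set_option linter.style.haveILetI false

open UpperHalfPlane ModularCurve CongruenceSubgroup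
open scoped MatrixGroups

noncomputable section

namespace Fermat.Agent.DS.Port.DiaLawF1

open Fermat.Agent.S24 Fermat.Agent.S24_helper62 Fermat.Agent.S24_helper82
open Fermat.Agent.GJ.Desc
open Fermat.Agent.DS.P0 Fermat.Agent.DS.P1 Fermat.Agent.DS.P1.RealizeF1
open Fermat.Agent.DS.P1.DiaF1 Fermat.Agent.DS.P1.DiaInst
open Fermat.Agent.DS.P3 Fermat.Agent.DS.P3.Desc1G Fermat.Agent.DS.P3.EigDescG
open Fermat.Agent.DS.P3.HeckeMer1
open Fermat.Agent.DS.P5 Fermat.Agent.DS.P5.KumType1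
open Fermat.Agent.DS.Port.PlugTest

attribute [local instance] Fermat.Agent.GJ.EigAsm.algKbC

variable {M : ℕ} [NeZero M] (D : WeberData M)

/-! ### The two realisations agree -/

/-- the `ℂ`-realisation of the base change, as a ring homomorphism on `F1C ℚ̄ M` -/
def realBCHom : ↥(F1C Kbar M) →+* Mer :=
  (realC D).comp ((bcG (F1 M)).comp
    (((eQ M).symm : ↥(F1C Kbar M) ≃ₐ[Kbar] FL (F1 M)) : ↥(F1C Kbar M) →+* FL (F1 M)))

theorem realBCHom_apply (y : F1C Kbar M) :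
    realBCHom D y = realC D (bcG (F1 M) ((eQ M).symm y)) := rfl

/-- the `ℂ`-realisation of the base change, as a `ℚ̄`-algebra map on `F1C ℚ̄ M` -/
def realBC : F1C Kbar M →ₐ[Kbar] Mer where
  toRingHom := realBCHom D
  commutes' c := by
    show realBCHom D (algebraMap Kbar ↥(F1C Kbar M) c) = _
    rw [realBCHom_apply, AlgEquiv.commutes]
    show realC D (bcHom Kbar ℂ (F1 M) (algebraMap Kbar ↥(laurentBaseChange Kbar (F1 M)) c)) = _
    rw [bcHom_algebraMap, realC_apply, AlgEquiv.commutes, AlgHom.commutes]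
    rfl

theorem realBC_apply (y : F1C Kbar M) :
    realBC D y = realC D (bcG (F1 M) ((eQ M).symm y)) := rfl

theorem coe_eQ_symm (y : F1C Kbar M) :
    (((eQ M).symm y : FL (F1 M)) : LaurentSeries Kbar) = (y : LaurentSeries Kbar) := by
  unfold eQ
  rw [IntermediateField.equivOfEq_symm]
  exact coe_equivOfEq _ y

theorem coe_eC (z : ↥(laurentBaseChange ℂ (F1 M))) :
    ((eC M z : F1C ℂ M) : LaurentSeries ℂ) = (z : LaurentSeries ℂ) := by
  unfold eC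
  exact coe_equivOfEq _ z

theorem coe_eC_bcG_eQ_symm (y : F1C Kbar M) :
    ((eC M (bcG (F1 M) ((eQ M).symm y)) : F1C ℂ M) : LaurentSeries ℂ) =
      coeffMap iotaC (y : LaurentSeries Kbar) := by
  rw [coe_eC, bcG_apply, coe_bcHom, coe_eQ_symm]
  rfl

theorem realBC_eq_real1 : realBC D = real1 D := by
  apply algHom_ext_F1C
  · intro d _ hd
    rw [realBC_apply, realC_apply, real1_jd, ← real1C_jd D d hd]
    congr 1
    apply Subtype.ext
    rw [coe_eC_bcG_eQ_symm]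
    show coeffMap iotaC (qExpand Kbar d (jqModC Kbar)) = qExpand ℂ d (jqModC ℂ)
    rw [coeffMap_qExpand, coeffMap_jqModC]
  · intro a ha
    rw [realBC_apply, realC_apply, real1_w, ← real1C_w D a ha]
    congr 1
    apply Subtype.ext
    rw [coe_eC_bcG_eQ_symm]
    show coeffMap iotaC (weber12C Kbar M a) = weber12C ℂ M a
    rw [coeffMap_weber12C]

/-- **the `ℂ`-realisation of the base change is the `ℚ̄`-realisation** -/
theorem realC_bcG_eq (x : FL (F1 M)) : realC D (bcG (F1 M) x) = real1 D (eQ M x) := by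
  rw [← realBC_eq_real1, realBC_apply, AlgEquiv.symm_apply_apply]

/-! ### The DIA law -/

variable {D}

theorem eQ_dia (hlaw : Gamma0Law D) (u : (ZMod M)ˣ) (x : FL (F1 M)) :
    eQ M (dia D hlaw u x) = diaK D hlaw u (eQ M x) := by
  unfold dia eQ
  rw [AlgEquiv.trans_apply, AlgEquiv.trans_apply, AlgEquiv.apply_symm_apply]

/-- **the DIA law**: on the realisation the diamond `⟨u⟩` is `f ↦ f ∘ g` for EVERY `g ∈ Γ₀(M)`
with `g₀₀ ≡ u`. -/
theorem diaLaw (hlaw : Gamma0Law D) {g : SL(2, ℤ)} (hg : g ∈ Gamma0 M) {u : (ZMod M)ˣ}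
    (hu : ((g 0 0 : ℤ) : ZMod M) = u) (x : FL (F1 M)) :
    realC D (bcG (F1 M) (dia D hlaw u x)) = compM g (realC D (bcG (F1 M) x)) := by
  rw [realC_bcG_eq, realC_bcG_eq, eQ_dia, real1_diaK hlaw hg hu]

/-! ### Entries of elements of `Γ₀(M)` -/

omit [NeZero M] in
theorem cast_zero_zero_mul_one_one {g : SL(2, ℤ)} (h10 : (M : ℤ) ∣ g 1 0) :
    ((g 0 0 : ℤ) : ZMod M) * ((g 1 1 : ℤ) : ZMod M) = 1 := by
  have hdet : g 0 0 * g 1 1 - g 0 1 * g 1 0 = 1 := by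
    have := g.det_coe
    rwa [Matrix.det_fin_two] at this
  have h0 : ((g 1 0 : ℤ) : ZMod M) = 0 := (ZMod.intCast_zmod_eq_zero_iff_dvd _ _).mpr h10
  have := congrArg (Int.cast : ℤ → ZMod M) hdet
  push_cast at this
  rw [h0, mul_zero, sub_zero] at this
  exact this

omit [NeZero M] in
theorem cast_zero_zero_eq_of_one_one {g : SL(2, ℤ)} (h10 : (M : ℤ) ∣ g 1 0) {u : (ZMod M)ˣ}
    (h11 : ((g 1 1 : ℤ) : ZMod M) = ((u⁻¹ : (ZMod M)ˣ) : ZMod M)) :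
    ((g 0 0 : ℤ) : ZMod M) = u := by
  have h := cast_zero_zero_mul_one_one h10
  rw [h11] at h
  calc ((g 0 0 : ℤ) : ZMod M) = ((g 0 0 : ℤ) : ZMod M) * (((u⁻¹ : (ZMod M)ˣ) : ZMod M) * u) := by
        rw [← Units.val_mul, inv_mul_cancel, Units.val_one, mul_one]
    _ = u := by rw [← mul_assoc, h, one_mul]

omit [NeZero M] in
theorem mem_Gamma0_of_dvd {g : SL(2, ℤ)} (h10 : (M : ℤ) ∣ g 1 0) : g ∈ Gamma0 M := by
  rw [Gamma0_mem]
  exact (ZMod.intCast_zmod_eq_zero_iff_dvd _ _).mpr h10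

omit [NeZero M] in
theorem inv_zero_zero (g : SL(2, ℤ)) : (g⁻¹ : SL(2, ℤ)) 0 0 = g 1 1 := by
  rw [Matrix.SpecialLinearGroup.SL2_inv_expl]
  rfl


/-! ### The consumer shapes, any Weber data -/

/-- **`hδ` of helper86's `HNAsm.exists_hn1`**: `σ' ∈ Γ₀(M)` with `σ'₁₁ · ℓ ≡ 1`, `u ≡ ℓ`. -/
theorem hdelta_F1 (hlaw : Gamma0Law D) {ℓ : ℕ} {u : (ZMod M)ˣ} (hu : (u : ZMod M) = (ℓ : ZMod M))
    {σ' : SL(2, ℤ)} (hσ'0 : (M : ℤ) ∣ σ' 1 0)
    (hσ'1 : ((σ' 1 1 : ℤ) : ZMod M) * (ℓ : ZMod M) = 1) (x : FL (F1 M)) :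
    realC D (bcG (F1 M) (dia D hlaw u x)) = compM σ' (realC D (bcG (F1 M) x)) := by
  refine diaLaw hlaw (mem_Gamma0_of_dvd hσ'0) ?_ x
  have h := cast_zero_zero_mul_one_one hσ'0
  calc ((σ' 0 0 : ℤ) : ZMod M)
      = ((σ' 0 0 : ℤ) : ZMod M) * (((σ' 1 1 : ℤ) : ZMod M) * (ℓ : ZMod M)) := by
        rw [hσ'1, mul_one]
    _ = (u : ZMod M) := by rw [← mul_assoc, h, one_mul, hu]

/-- the DIA law for a representative given by its LOWER RIGHT entry `≡ u⁻¹` -/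
theorem diaLaw_of_one_one (hlaw : Gamma0Law D) {u : (ZMod M)ˣ} {σ' : SL(2, ℤ)}
    (hσ'0 : (M : ℤ) ∣ σ' 1 0)
    (hσ'1 : ((σ' 1 1 : ℤ) : ZMod M) = ((u⁻¹ : (ZMod M)ˣ) : ZMod M)) (x : FL (F1 M)) :
    realC D (bcG (F1 M) (dia D hlaw u x)) = compM σ' (realC D (bcG (F1 M) x)) :=
  diaLaw hlaw (mem_Gamma0_of_dvd hσ'0) (cast_zero_zero_eq_of_one_one hσ'0 hσ'1) x

/-- **`hHND`** (helper69 `PlugTest.portExport1_of_open_leaves`, helper16 `DictPlug`, helper86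
`hHNT_Gamma1` / `hnMem1_Gamma1`): the canonical `merD` form. -/
theorem hHND_F1 (hlaw : Gamma0Law D) (d : (ZMod M)ˣ) (u : FL (F1 M)) :
    realQ (bcG (F1 M)) (realC D) (dia D hlaw d u) =
      HeckeMerTriple.merD d (realQ (bcG (F1 M)) (realC D) u) :=
  diaLaw_of_one_one hlaw (Coh1.sigmaOf_dvd _) (Coh1.sigmaOf_cast _) u

/-- the same with `RingHom.comp` spelled out (helper86's `hHNT_Gamma1`) -/
theorem hHND_F1' (hlaw : Gamma0Law D) (d : (ZMod M)ˣ) (u : FL (F1 M)) :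
    ((realC D).comp (bcG (F1 M))) (dia D hlaw d u) =
      HeckeMerTriple.merD d (((realC D).comp (bcG (F1 M))) u) :=
  hHND_F1 hlaw d u

/-- **`hδ` of `HNAsm.exists_hn1_merT` / `hnMem1_Gamma1`** at `δ := dia (unitOf hℓM)`. -/
theorem hdelta_merD_F1 (hlaw : Gamma0Law D) {ℓ : ℕ} [Fact ℓ.Prime] (hℓM : ¬ ℓ ∣ M)
    (u : FL (F1 M)) :
    realC D (bcG (F1 M) (dia D hlaw (Coh1.unitOf hℓM) u)) =
      HeckeMerTriple.merD (Coh1.unitOf hℓM) (realC D (bcG (F1 M) u)) :=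
  hHND_F1 hlaw _ u

/-- **`DiaReal`** (the binder of `HNDivDesc.hnDiv1_P5` / `hnMem1_P5`): `σ ∈ Γ₀(M)`, `σ₁₁ ≡ u`. -/
theorem diaReal_F1 (hlaw : Gamma0Law D) {u : (ZMod M)ˣ} {σ : SL(2, ℤ)} (hσ0 : (M : ℤ) ∣ σ 1 0)
    (hσ1 : ((σ 1 1 : ℤ) : ZMod M) = (u : ZMod M)) :
    Fermat.Agent.DS.P4.HNDivDesc.DiaReal (dia D hlaw u) (realC D) σ := by
  intro x
  have hg : σ⁻¹ ∈ Gamma0 M := inv_mem (mem_Gamma0_of_dvd hσ0)
  have hu : (((σ⁻¹ : SL(2, ℤ)) 0 0 : ℤ) : ZMod M) = u := by rw [inv_zero_zero, hσ1]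
  rw [diaLaw hlaw hg hu x, ← compM_mul, inv_mul_cancel, compM_one]

/-- `hHND` in helper94's `EigFinalF1.eig1Prime_F1` shape (ANY representatives `σD'`). -/
theorem hHND_realR (hlaw : Gamma0Law D) (σD' : (ZMod M)ˣ → SL(2, ℤ))
    (hσD'0 : ∀ d, (M : ℤ) ∣ σD' d 1 0)
    (hσD'1 : ∀ d : (ZMod M)ˣ, ((σD' d 1 1 : ℤ) : ZMod M) = ((d⁻¹ : (ZMod M)ˣ) : ZMod M))
    (d : (ZMod M)ˣ) (u : FL (F1 M)) :
    Fermat.Agent.DS.P3.DictCuspInst.realR D
        (Fermat.Agent.DS.P3.EigFinalF1.bc1 M (dia D hlaw d u)) =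
      compM (σD' d) (Fermat.Agent.DS.P3.DictCuspInst.realR D
        (Fermat.Agent.DS.P3.EigFinalF1.bc1 M u)) := by
  have h : ∀ x : FL (F1 M), Fermat.Agent.DS.P3.DictCuspInst.realR D
      (Fermat.Agent.DS.P3.EigFinalF1.bc1 M x) = realC D (bcG (F1 M) x) := by
    intro x
    rw [realC_apply]
    show real1C D _ = real1C D _
    congr 1
  rw [h, h]
  exact diaLaw_of_one_one hlaw (hσD'0 d) (hσD'1 d) u

/-! ### The unconditional instance `D := weberData M hM`, `dia := diaX1 M hM` (`1 < M`) -/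

section Inst

open Fermat.Agent.DS.P1.WeberDataInst

variable (M) (hM : 1 < M)

/-- **the DIA law for `diaX1`**, every representative `g ∈ Γ₀(M)`, `g₀₀ ≡ u` -/
theorem diaLaw_X1 {g : SL(2, ℤ)} (hg : g ∈ Gamma0 M) {u : (ZMod M)ˣ}
    (hu : ((g 0 0 : ℤ) : ZMod M) = u) (x : FL (F1 M)) :
    realC (weberData M hM) (bcG (F1 M) (diaX1 M hM u x)) =
      compM g (realC (weberData M hM) (bcG (F1 M) x)) :=
  diaLaw (gamma0Law_weberData M hM) hg hu x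

/-- **`hHND` for `diaX1`** -/
theorem hHND_X1 (d : (ZMod M)ˣ) (u : FL (F1 M)) :
    realQ (bcG (F1 M)) (realC (weberData M hM)) (diaX1 M hM d u) =
      HeckeMerTriple.merD d (realQ (bcG (F1 M)) (realC (weberData M hM)) u) :=
  hHND_F1 (gamma0Law_weberData M hM) d u

/-- **`hHND` for `diaX1`** in helper94's `eig1Prime_F1` shape -/
theorem hHND_realR_X1 (σD' : (ZMod M)ˣ → SL(2, ℤ)) (hσD'0 : ∀ d, (M : ℤ) ∣ σD' d 1 0)
    (hσD'1 : ∀ d : (ZMod M)ˣ, ((σD' d 1 1 : ℤ) : ZMod M) = ((d⁻¹ : (ZMod M)ˣ) : ZMod M))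
    (d : (ZMod M)ˣ) (u : FL (F1 M)) :
    Fermat.Agent.DS.P3.DictCuspInst.realR (weberData M hM)
        (Fermat.Agent.DS.P3.EigFinalF1.bc1 M (diaX1 M hM d u)) =
      compM (σD' d) (Fermat.Agent.DS.P3.DictCuspInst.realR (weberData M hM)
        (Fermat.Agent.DS.P3.EigFinalF1.bc1 M u)) :=
  hHND_realR (gamma0Law_weberData M hM) σD' hσD'0 hσD'1 d u

/-- **`DiaReal` for `diaP (diaX1 M hM) hq hqM`**: `σ ∈ Γ₀(M)`, `σ₁₁ ≡ q`. -/
theorem diaReal_X1 {q : ℕ} (hq : q.Prime) (hqM : ¬ q ∣ M) {σ : SL(2, ℤ)}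
    (hσ0 : (M : ℤ) ∣ σ 1 0) (hσ1 : ((σ 1 1 : ℤ) : ZMod M) = (q : ZMod M)) :
    Fermat.Agent.DS.P4.HNDivDesc.DiaReal (diaP (diaX1 M hM) hq hqM)
      (realC (weberData M hM)) σ :=
  diaReal_F1 (gamma0Law_weberData M hM) hσ0 (by rw [hσ1, coe_unitOfPrime])

/-- **`hδ` of `HNAsm.exists_hn1`** for `diaP (diaX1 M hM) hq hqM` -/
theorem hdelta_X1 {q : ℕ} (hq : q.Prime) (hqM : ¬ q ∣ M) {σ' : SL(2, ℤ)}
    (hσ'0 : (M : ℤ) ∣ σ' 1 0) (hσ'1 : ((σ' 1 1 : ℤ) : ZMod M) * (q : ZMod M) = 1)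
    (x : FL (F1 M)) :
    realC (weberData M hM) (bcG (F1 M) (diaP (diaX1 M hM) hq hqM x)) =
      compM σ' (realC (weberData M hM) (bcG (F1 M) x)) :=
  hdelta_F1 (gamma0Law_weberData M hM) (coe_unitOfPrime hq hqM) hσ'0 hσ'1 x

/-- **`hδ` of helper17's `hnDiv1_Gamma1_P5` / helper86's `hnMem1_Gamma1`** (canonical `merD` form) for
`diaP (diaX1 M hM) hq hqM` -/
theorem hdelta_merD_X1 {q : ℕ} [Fact q.Prime] (hq : q.Prime) (hqM : ¬ q ∣ M) (u : FL (F1 M)) :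
    realC (weberData M hM) (bcG (F1 M) (diaP (diaX1 M hM) hq hqM u)) =
      HeckeMerTriple.merD (Coh1.unitOf hqM) (realC (weberData M hM) (bcG (F1 M) u)) := by
  have h : unitOfPrime hq hqM = Coh1.unitOf hqM :=
    Units.ext (by rw [coe_unitOfPrime, Coh1.coe_unitOf])
  unfold diaP
  rw [h]
  exact hdelta_merD_F1 (gamma0Law_weberData M hM) hqM u

end Inst

end Fermat.Agent.DS.Port.DiaLawF1
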