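/-
GATE-N / S48-PORT-PLUGTEST (helper69), version 2: `PlugTest.portExport1_of_open_leaves` with the
CORRECTED (DIA-INT) binder `P4.DiaInt2` (helper67 `DS/P4/ESGen2.lean`; the series form `P4.DiaInt`
is false for nontrivial diamonds).  Everything else is unchanged: the whole `Γ₁(M)` port for
`F₀ := F1 M` as ONE term in its open leaves.
-/
import Mathlib
import Fermat.Agent.DS.Port.PlugTest
import Fermat.Agent.DS.P5.PortAsm2

set_option autoImplicit false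
set_option linter.style.haveILetI false
set_option linter.unusedSectionVars false

open UpperHalfPlane Complex AlgebraicCurve ModularCurve TensorProduct CongruenceSubgroup
  ModularCurve.Period
open scoped MatrixGroups

noncomputable section

namespace Fermat.Agent.DS.Port.PlugTest2

open Fermat.Agent.S24 Fermat.Agent.S24_helper82 Fermat.Agent.GJ.HeckeMer Fermat.Agent.GJ.KumGroup
open Fermat.Agent.DS.P0 Fermat.Agent.DS.P1.RealizeF1
open Fermat.Agent.DS.P3.KumCoreG Fermat.Agent.DS.P3.EigAsmG Fermat.Agent.DS.P3.EigDescG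
open Fermat.Agent.DS.P3.Desc1G Fermat.Agent.DS.P3.PDiv1 Fermat.Agent.DS.P3
open Fermat.Agent.DS.P5 Fermat.Agent.DS.P5.KumType1 Fermat.Agent.DS.P5.PortExport1
open Fermat.Agent.DS.Port.PlugP2 Fermat.Agent.DS.Port.PlugP3 Fermat.Agent.DS.Port.PlugTest

variable {M : ℕ} [NeZero M]

/-- **(EIG1) at `F₀ := F1 M`** from Weber data, the dictionaries and the two (HN) bridges. -/
theorem eig1Prime_F1 {p : ℕ} [Fact p.Prime] (hM4 : 4 ≤ M) (D : WeberData M)
    (jC : ↥(laurentBaseChange ℂ (F1 M)))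
    (hI : IntDict (Gamma1 M) (realC D) jC) (hC : CuspDict (Gamma1 M) (realC D) jC)
    (hE1 : Fermat.Agent.DS.P3.FinC1.E1 (realC D))
    (dia : (ZMod M)ˣ → (FL (F1 M) ≃ₐ[Kb] FL (F1 M)))
    (hHND : ∀ (d : (ZMod M)ˣ) (u : FL (F1 M)),
      realQ (bcG (F1 M)) (realC D) (dia d u) =
        HeckeMerTriple.merD d (realQ (bcG (F1 M)) (realC D) u))
    (hHNT : ∀ (ℓ : ℕ) (hℓ : ℓ.Prime) (hℓMp : ¬ ℓ ∣ M * p) (u : FL (F1 M)), u ≠ 0 →
      ∃ Tu : FL (F1 M),
        ((Tu : FL (F1 M)) : LaurentSeries Kb) =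
          @hn1Series (F1 M) ℓ ⟨hℓ.ne_zero⟩
            (diaP dia hℓ (not_dvd_left_of_not_dvd_mul hℓMp)) u ∧
        realQ (bcG (F1 M)) (realC D) Tu =
          @HeckeMerTriple.merT M _ ℓ ⟨hℓ⟩ (not_dvd_left_of_not_dvd_mul hℓMp)
            (realQ (bcG (F1 M)) (realC D) u)) :
    EIG1Prime (F1 M) p dia := by
  haveI : NeZero p := ⟨(Fact.out : p.Prime).ne_zero⟩
  obtain ⟨ζ, hζ⟩ : ∃ ζ : ℂ, IsPrimitiveRoot ζ p :=
    ⟨_, Complex.isPrimitiveRoot_exp p (NeZero.ne p)⟩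
  haveI : IsGen Kb (x₀ M) := isGen_x₀ D
  have hfin : Finite (Kum ℂ ↥(laurentBaseChange ℂ (F1 M)) p) :=
    Fermat.Agent.DS.P3.FinC1.finite_kum_Gamma1 M hE1 (hinvC D) (satC D)
  have hP : PDivG (Gamma1 M) p (K := ℂ) (realC D) ζ (fun ψ => IsParabolicHom (Gamma1 M) ψ) :=
    Fermat.Agent.DS.P3.PDiv1Plug.pdivG_of_dict_Gamma1 hM4 hI hC
  exact eig1Prime_of_hyps dia (realC D) hζ (hinvC D) (satC D)
    (exC D (by omega) hζ.pow_eq_one) hP (x₀ M) (exists_order_ne_zero_F1 M) hfin hHNT hHND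

/-- **The `Γ₁(M)` port from its OPEN leaves** (corrected (DIA-INT)); `hE` is P3's export at
`F₀ := F1 M` (`eig1Prime_F1`, or helper94's `EigFinal2`/`EigFinalHN` instance). -/
theorem portExport1_of_open_leaves2 {p : ℕ} [Fact p.Prime] (h6 : 2 ∣ M ∨ 3 ∣ M)
    -- P1 analytic
    (D : WeberData M)
    -- P2 Igusa
    (hIG : ∀ ℓ : ℕ, ℓ.Prime → ¬ ℓ ∣ M * p → ∀ A : ValuationSubring Kb, A.LiesOverPrime ℓ →
      IgusaDeg M A)
    -- the diamond family
    (dia : (ZMod M)ˣ → (FL (F1 M) ≃ₐ[Kb] FL (F1 M)))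
    (hdG : ∀ u, DiaComm (dia u))
    (hdI : ∀ (q : ℕ) (hq : q.Prime) (hqMp : ¬ q ∣ M * p) (A : ValuationSubring Kb),
      A.LiesOverPrime q →
        Fermat.Agent.DS.P4.DiaInt2 (F1 M) (diaP dia hq (not_dvd_left_of_not_dvd_mul hqMp)) A)
    -- HN1
    (hM : ∀ (q : ℕ) (hq : q.Prime) (hqM : ¬ q ∣ M), HNMem1 q (diaP dia hq hqM))
    (hD : ∀ (q : ℕ) (hq : q.Prime) (hqM : ¬ q ∣ M), HNDiv1 p q (diaP dia hq hqM))
    -- P3
    (hE : EIG1Prime (F1 M) p dia) :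
    Fermat.Agent.DS.N3.Theta.PortExport1 M p := by
  refine Fermat.Agent.DS.P5.PortAsm2.portExport1_of_leaves2 hdG hM hD ?_ ?_ hdI hE
  · intro q hq hqMp
    have hqM : ¬ q ∣ M := not_dvd_left_of_not_dvd_mul hqMp
    have hqp : ¬ q ∣ p := fun h => hqMp (Dvd.dvd.mul_left h M)
    refine hK_of_weberData_igusa D hq hqM ?_ ?_ (hIG q hq hqMp) hqp
    · rintro rfl
      rcases h6 with h | h
      · exact absurd h hqM
      · exact h
    · rintro rfl
      rcases h6 with h | h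
      · exact h
      · exact absurd h hqM
  · intro q _ _
    exact hG_F1 q

end Fermat.Agent.DS.Port.PlugTest2
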