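/-
GATE-N / S48-PORT (helper69): **the `Γ₁(M)` port for `F₀ := F1 M` from TWO inputs**:

* Igusa:  `K18sPortF1.IgusaAt M q` for the primes `q ∤ M` (helper87/helper92/helper54 IG),
* DIA:    a diamond family `Δ : DiaSpec D` on `FL (F1 M)` (helper45/helper30/helper26 DiaF1):
          `dia d`, defined over `ℚ` (`DiaComm`), fixing `j(q^M)`, realised by `compM (σ d)`,
          `σ d ∈ Γ₀(M)` with lower right entry `≡ d⁻¹`.

Everything else is discharged from main: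
P1 (`RealizeF1`, `QuotHolF1`, `ExpBridge`), DICT (helper16 `intDict1`, `cuspDict1`, `e1_1`),
P3 (helper94 `EigFinalHN.eig1All2_of_exp`), HN1 (helper86 `HNAsm.exists_hn1`), HNDiv (helper17
`HNDivInst1.dvd_ord_heckeNormT1'`, helper18 `HNDivDesc.hnDiv1_of_an`), DIA-INT (helper67
`DiaIntOfHdeg.diaInt2_F1`), P2 (`PlugP2`), P4/P5 (`PortAsm2`).

`portExport1_F1 : N3.Theta.PortExport1 M p`.
-/
import Mathlib
import Fermat.Agent.DS.Port.PlugTest2
import Fermat.Agent.DS.P1.QuotHolF1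
import Fermat.Agent.DS.P1.WeberAnData
import Fermat.Agent.DS.P1.ExpBridge
import Fermat.Agent.DS.P3.EigFinalHN
import Fermat.Agent.DS.P3.IntDictInst
import Fermat.Agent.DS.P3.IntDictE1
import Fermat.Agent.DS.P3.DictCuspInst
import Fermat.Agent.DS.P2.DiaIntOfHdeg
import Fermat.Agent.DS.P2.K18sPortF1
import Fermat.Agent.DS.P4.HNDivDesc
import Fermat.Agent.DS.P4.HNDivInst1

set_option autoImplicit false
set_option linter.style.haveILetI false
set_option linter.unusedSectionVars false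

open UpperHalfPlane Complex AlgebraicCurve ModularCurve TensorProduct CongruenceSubgroup
  ModularCurve.Period
open scoped MatrixGroups

noncomputable section

namespace Fermat.Agent.DS.Port.PortF1

open Fermat.Agent.S24 Fermat.Agent.S24_helper82 Fermat.Agent.GJ.HeckeMer Fermat.Agent.GJ.KumGroup
open Fermat.Agent.GJ.TwEis (MerCE)
open Fermat.Agent.DS.P0 Fermat.Agent.DS.P1.RealizeF1
open Fermat.Agent.DS.P3.KumCoreG Fermat.Agent.DS.P3.EigAsmG Fermat.Agent.DS.P3.EigDescG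
open Fermat.Agent.DS.P3.Desc1G Fermat.Agent.DS.P3.PDiv1 Fermat.Agent.DS.P3
open Fermat.Agent.DS.P3.DictCuspInst
open Fermat.Agent.DS.P5 Fermat.Agent.DS.P5.KumType1 Fermat.Agent.DS.P5.PortExport1
open Fermat.Agent.DS.Port.PlugP2 Fermat.Agent.DS.Port.PlugP3 Fermat.Agent.DS.Port.PlugTest

attribute [local instance] Fermat.Agent.GJ.EigAsm.algKbC

/-! ### Transport of a property of a realisation along an equality of fields -/

theorem transport_real {K L : Type*} [Field K] [Field L] [Algebra K L]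
    {F F' : IntermediateField K L} (h : F = F')
    (P : ∀ E : IntermediateField K L, (E →+* Mer) → Prop) (real : F' →+* Mer)
    (hP : P F' real) :
    P F (real.comp ((IntermediateField.equivOfEq h : F ≃ₐ[K] F') : F →+* F')) := by
  subst h
  have e1 : real.comp ((IntermediateField.equivOfEq (rfl : F = F) : F ≃ₐ[K] F) : F →+* F)
      = real := by
    ext x
    rw [IntermediateField.equivOfEq_rfl]
    rfl
  rw [e1]
  exact hP

theorem transport_real_elt {K L : Type*} [Field K] [Field L] [Algebra K L]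
    {F F' : IntermediateField K L} (h : F = F')
    (P : ∀ E : IntermediateField K L, (E →+* Mer) → E → Prop) (real : F' →+* Mer) (j : F')
    (hP : P F' real j) :
    P F (real.comp ((IntermediateField.equivOfEq h : F ≃ₐ[K] F') : F →+* F'))
      ((IntermediateField.equivOfEq h).symm j) := by
  subst h
  have e1 : real.comp ((IntermediateField.equivOfEq (rfl : F = F) : F ≃ₐ[K] F) : F →+* F)
      = real := by
    ext x
    rw [IntermediateField.equivOfEq_rfl]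
    rfl
  have e2 : (IntermediateField.equivOfEq (rfl : F = F)).symm j = j := by
    rw [IntermediateField.equivOfEq_rfl]
    rfl
  rw [e1, e2]
  exact hP

variable {M : ℕ} [NeZero M]

/-- `j` in `F1 M ⊗ ℂ` -/
def jC (M : ℕ) [NeZero M] : ↥(laurentBaseChange ℂ (F1 M)) := (eC M).symm (j1C M)

theorem realC_eq_comp (D : WeberData M) :
    realC D = (realR D).comp
      ((IntermediateField.equivOfEq (laurentBaseChange_F1 ℂ M) :
        ↥(laurentBaseChange ℂ (F1 M)) ≃ₐ[ℂ] ↥(F1C ℂ M)) :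
        ↥(laurentBaseChange ℂ (F1 M)) →+* ↥(F1C ℂ M)) := rfl

/-- (EXP) -/
theorem hexpC (D : WeberData M) (f : ↥(laurentBaseChange ℂ (F1 M))) :
    MerCE 1 (realC D f) (f : LaurentSeries ℂ) := by
  have h := transport_real (laurentBaseChange_F1 ℂ M)
    (fun E real => ∀ f : E, MerCE 1 (real f) (f : LaurentSeries ℂ)) (realR D)
    (fun f => Fermat.Agent.DS.P1.ExpBridge.merCE_realOf (genFam D) (isCE_genFam D)
      (F1C_eq_FG D) f)
  exact h f

/-- (QUOT) -/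
theorem quotHolC (D : WeberData M) :
    Fermat.Agent.DS.P3.HNMem.QuotHol (Gamma1 M) M (realC D) :=
  transport_real (laurentBaseChange_F1 ℂ M)
    (fun _ real => Fermat.Agent.DS.P3.HNMem.QuotHol (Gamma1 M) M real) (realR D)
    (Fermat.Agent.DS.P1.QuotHolF1.quotHol_real1C D)

/-- (DICT-INT) -/
theorem intDictC (D : WeberData M) (hM : 4 ≤ M) : IntDict (Gamma1 M) (realC D) (jC M) :=
  transport_real_elt (laurentBaseChange_F1 ℂ M)
    (fun _ real j => IntDict (Gamma1 M) real j) (realR D) (j1C M)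
    (Fermat.Agent.DS.P3.IntDictInst.intDict1 D hM)

/-- (DICT-CUSP) -/
theorem cuspDictC (D : WeberData M) (hM : ¬ M ∣ 4) : CuspDict (Gamma1 M) (realC D) (jC M) :=
  transport_real_elt (laurentBaseChange_F1 ℂ M)
    (fun _ real j => CuspDict (Gamma1 M) real j) (realR D) (j1C M)
    (cuspDict1 D hM)

/-- (E1) -/
theorem e1C (D : WeberData M) : Fermat.Agent.DS.P3.FinC1.E1 (realC D) :=
  transport_real (laurentBaseChange_F1 ℂ M)
    (fun _ real => Fermat.Agent.DS.P3.FinC1.E1 real) (realR D)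
    (Fermat.Agent.DS.P3.IntDictInst.e1_1 D)

/-- constants -/
theorem realC_algebraMap (D : WeberData M) (c : ℂ) :
    realC D (algebraMap ℂ ↥(laurentBaseChange ℂ (F1 M)) c) = algebraMap ℂ Mer c := by
  rw [realC_apply, AlgEquiv.commutes]
  exact (real1C D).commutes c

/-! ### The diamond family: what the port consumes -/

/-- **The diamond family on `FL (F1 M)`** in the shape consumed by the port (the union of the
binders of the four consumers: P5 `DiaComm`, helper67 `diaInt2_F1`, helper94 `eig1All2_of_exp`,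
helper86 `exists_hn1`). -/
structure DiaSpec (D : WeberData M) where
  /-- the moduli diamond `d ↦ [d]` -/
  dia : (ZMod M)ˣ → (FL (F1 M) ≃ₐ[Kb] FL (F1 M))
  /-- defined over `ℚ` -/
  comm : ∀ d, DiaComm (dia d)
  /-- fixes `j(q^M)` -/
  fixJ : ∀ (d : (ZMod M)ˣ) (x : FL (F1 M)),
    (x : LaurentSeries Kb) = qExpand Kb M (jqModC Kb) →
      ((dia d x : FL (F1 M)) : LaurentSeries Kb) = qExpand Kb M (jqModC Kb)
  /-- representatives in `Γ₀(M)` with lower right entry `≡ d⁻¹` -/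
  σ : (ZMod M)ˣ → SL(2, ℤ)
  σ_dvd : ∀ d, (M : ℤ) ∣ σ d 1 0
  σ_cast : ∀ d : (ZMod M)ˣ, ((σ d 1 1 : ℤ) : ZMod M) = ((d⁻¹ : (ZMod M)ˣ) : ZMod M)
  /-- (P1e): `dia d` is realised by `compM (σ d)` -/
  real : ∀ (d : (ZMod M)ˣ) (u : FL (F1 M)),
    realC D (bcG (F1 M) (dia d u)) = compM (σ d) (realC D (bcG (F1 M) u))

section Consumers

variable {D : WeberData M} (Δ : DiaSpec D)

theorem isTwist_sigmaOf {ℓ : ℕ} (hℓ : ℓ.Prime) (hℓM : ¬ ℓ ∣ M) :
    HeckeMer1.IsTwist M ℓ (Coh1.sigmaOf (unitOfPrime hℓ hℓM)) :=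
  ⟨Coh1.sigmaOf_dvd _, (Coh1.sigmaOf_cast _).trans (coe_unitOfPrime _ _)⟩

theorem σ_cast_mul {ℓ : ℕ} (hℓ : ℓ.Prime) (hℓM : ¬ ℓ ∣ M) :
    ((Δ.σ (unitOfPrime hℓ hℓM) 1 1 : ℤ) : ZMod M) * (ℓ : ZMod M) = 1 := by
  rw [Δ.σ_cast, ← coe_unitOfPrime hℓ hℓM, ← Units.val_mul, inv_mul_cancel, Units.val_one]

/-- (HN): the Hecke norm with nebentypus, over `ℚ̄`, with its realisation. -/
theorem exists_hn1_F1 {ℓ : ℕ} (hℓ : ℓ.Prime) (hℓM : ¬ ℓ ∣ M) (u : FL (F1 M)) :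
    ∃ Tu : FL (F1 M),
      ((Tu : FL (F1 M)) : LaurentSeries Kb) =
        @hn1Series (F1 M) ℓ ⟨hℓ.ne_zero⟩ (diaP Δ.dia hℓ hℓM) u ∧
      realC D (bcG (F1 M) Tu) =
        @HeckeMer1.heckeNormT1 ℓ ⟨hℓ.ne_zero⟩ (Coh1.sigmaOf (unitOfPrime hℓ hℓM))
          (realC D (bcG (F1 M) (diaP Δ.dia hℓ hℓM u))) := by
  haveI : Fact ℓ.Prime := ⟨hℓ⟩
  haveI : NeZero ℓ := ⟨hℓ.ne_zero⟩
  obtain ⟨Tu, h1, h2⟩ := Fermat.Agent.DS.P3.HNAsm.exists_hn1 (F1 M) (realC D) (hexpC D)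
    (fieldGenHolC D) (quotHolC D) hℓM (isTwist_sigmaOf hℓ hℓM) (Δ.σ_dvd _)
    (σ_cast_mul Δ hℓ hℓM) (diaP Δ.dia hℓ hℓM) (fun v => Δ.real _ v) u
  refine ⟨Tu, h1, ?_⟩
  rw [h2]
  congr 1
  exact (Δ.real _ u).symm

/-- `hM` of the port -/
theorem hnMem1_F1 (q : ℕ) (hq : q.Prime) (hqM : ¬ q ∣ M) : HNMem1 q (diaP Δ.dia hq hqM) := by
  intro inst u
  obtain ⟨Tu, h, -⟩ := exists_hn1_F1 Δ hq hqM u
  have h' : ((Tu : FL (F1 M)) : LaurentSeries Kb) =
      @hn1Series (F1 M) q inst (diaP Δ.dia hq hqM) u := h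
  rw [← h']
  exact Tu.2

/-- `hD` of the port -/
theorem hnDiv1_F1 (p : ℕ) [Fact p.Prime] (q : ℕ) (hq : q.Prime) (hqM : ¬ q ∣ M) :
    HNDiv1 p q (diaP Δ.dia hq hqM) := by
  haveI : Fact q.Prime := ⟨hq⟩
  haveI : IsGen Kb (x₀ M) := isGen_x₀ D
  haveI : CharZero Kb := charZero_of_injective_algebraMap (algebraMap ℚ Kb).injective
  haveI : IsGen ℂ (Fermat.Agent.GJ.Desc.bcHom Kb ℂ (F1 M) (x₀ M)) :=
    Fermat.Agent.GJ.Desc.isGen_bcHom Kb ℂ (F1 M) (x₀ M)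
  refine @Fermat.Agent.DS.P5.FromP4.hnDiv1_of_P4 (F1 M) p q (diaP Δ.dia hq hqM) fun {inst} => ?_
  refine @Fermat.Agent.DS.P4.HNDivDesc.hnDiv1_of_an (F1 M) p q _ inst (diaP Δ.dia hq hqM) (x₀ M) _
    (realC D) (@HeckeMer1.heckeNormT1 q inst (Coh1.sigmaOf (unitOfPrime hq hqM))) ?_ ?_
  · intro w Tw hTw hw Q
    exact Fermat.Agent.DS.P4.HNDivInst1.dvd_ord_heckeNormT1' (N := M) hqM
      (Coh1.sigmaOf_dvd _) ((Coh1.sigmaOf_cast _).trans (coe_unitOfPrime _ _)) (realC D)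
      (realC_algebraMap D) (fieldGenHolC D)
      (Fermat.Agent.DS.P4.HNDivInst1.quotHyp_of_quotHol (quotHolC D))
      (Fermat.Agent.GJ.Desc.bcHom Kb ℂ (F1 M) (x₀ M)) (p : ℤ) w Tw hTw hw Q
  · intro u x hx
    obtain ⟨Tu, h1, h2⟩ := exists_hn1_F1 Δ hq hqM u
    have hxT : x = Tu := Subtype.ext (hx.trans h1.symm)
    rw [hxT]
    exact h2

/-- `hdI` of the port -/
theorem diaInt2_F1 {q : ℕ} (hq : q.Prime) (hqM : ¬ q ∣ M)
    (hIG : Fermat.Agent.DS.P2.K18sPortF1.IgusaAt M q) (A : ValuationSubring Kb)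
    (hA : A.LiesOverPrime q) :
    Fermat.Agent.DS.P4.DiaInt2 (F1 M) (diaP Δ.dia hq hqM) A := by
  haveI : IsGen Kb (j1K M) := isGen_j1 D
  exact Fermat.Agent.DS.P2.DiaIntOfHdeg.diaInt2_F1 M A (j1K M) (hIG A hA) (diaP Δ.dia hq hqM)
    (Δ.fixJ _)

/-- `hE` of the port -/
theorem eig1Prime_F1 (p : ℕ) [Fact p.Prime] (hM : 5 ≤ M) : EIG1Prime (F1 M) p Δ.dia := by
  haveI : IsGen Kb (x₀ M) := isGen_x₀ D
  have hM4 : ¬ M ∣ 4 := fun h => by
    have := Nat.le_of_dvd (by norm_num) h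
    omega
  exact eig1Prime_of_all2 (Fermat.Agent.DS.P5.Final2.EIG1All2_of_canonical
    (Fermat.Agent.DS.P3.EigFinalHN.eig1All2_of_exp (by omega) (∅ : Set ℕ) (realC D) (jC M)
      (hexpC D) (fieldGenHolC D) (quotHolC D) (x₀ M) (exists_order_ne_zero_F1 M)
      (intDictC D (by omega)) (cuspDictC D hM4) (e1C D) Δ.σ Δ.σ_dvd Δ.σ_cast Δ.real
      (fun ℓ _ _ => Set.notMem_empty ℓ)))

end Consumers

/-! ### The port -/

/-- **The `Γ₁(M)` port** for `F₀ := F1 M`, from Igusa's degree statement and the diamond family. -/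
theorem portExport1_F1 {p : ℕ} [Fact p.Prime] (hM : 5 ≤ M) (h6 : 2 ∣ M ∨ 3 ∣ M)
    (D : WeberData M) (Δ : DiaSpec D)
    (hIG : ∀ q : ℕ, q.Prime → ¬ q ∣ M → Fermat.Agent.DS.P2.K18sPortF1.IgusaAt M q) :
    Fermat.Agent.DS.N3.Theta.PortExport1 M p :=
  Fermat.Agent.DS.Port.PlugTest2.portExport1_of_open_leaves2 h6 D
    (fun ℓ hℓ hℓMp A hA => hIG ℓ hℓ (not_dvd_left_of_not_dvd_mul hℓMp) A hA)
    Δ.dia Δ.comm
    (fun q hq hqMp A hA => diaInt2_F1 Δ hq (not_dvd_left_of_not_dvd_mul hqMp)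
      (hIG q hq (not_dvd_left_of_not_dvd_mul hqMp)) A hA)
    (hnMem1_F1 Δ) (hnDiv1_F1 Δ p) (eig1Prime_F1 Δ p hM)

/-- the same with the closed Weber data `weberData M` of helper71 (`DS/P1/WeberAnData.lean`). -/
theorem portExport1_F1_weber {p : ℕ} [Fact p.Prime] (hM : 5 ≤ M) (h6 : 2 ∣ M ∨ 3 ∣ M)
    (Δ : DiaSpec (Fermat.Agent.DS.P1.weberData M (by omega)))
    (hIG : ∀ q : ℕ, q.Prime → ¬ q ∣ M → Fermat.Agent.DS.P2.K18sPortF1.IgusaAt M q) :
    Fermat.Agent.DS.N3.Theta.PortExport1 M p :=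
  portExport1_F1 hM h6 _ Δ hIG

/-- **The `hPort` binder of `DS/N6/S48Port.s48At_of_port_only23`** from Igusa and DIA at every
level. -/
theorem hPort23_of_igusa_dia
    (hIG : ∀ (M : ℕ) [NeZero M], 5 ≤ M → ∀ q : ℕ, q.Prime → ¬ q ∣ M →
      Fermat.Agent.DS.P2.K18sPortF1.IgusaAt M q)
    (hΔ : ∀ (M : ℕ) [NeZero M] (hM : 1 < M),
      Nonempty (DiaSpec (Fermat.Agent.DS.P1.weberData M hM))) :
    ∀ (N : ℕ) [NeZero N], (2 ∣ N ∨ 3 ∣ N) → ∃ ℓ₁ : ℕ,
      ∀ (ℓ : ℕ) [Fact ℓ.Prime] [NeZero (N * ℓ)], ℓ₁ ≤ ℓ → ¬ ℓ ∣ N →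
        Fermat.Agent.DS.N3.Theta.PortExport1 (N * ℓ) ℓ := by
  intro N _ h6
  refine ⟨5, fun ℓ _ _ hℓ5 _ => ?_⟩
  have hN : 1 ≤ N := Nat.one_le_iff_ne_zero.mpr (NeZero.ne N)
  have hM5 : 5 ≤ N * ℓ := le_trans hℓ5 (Nat.le_mul_of_pos_left ℓ hN)
  obtain ⟨Δ⟩ := hΔ (N * ℓ) (by omega)
  refine portExport1_F1_weber hM5 ?_ Δ (hIG (N * ℓ) hM5)
  rcases h6 with h | h
  · exact Or.inl (Dvd.dvd.mul_right h ℓ)
  · exact Or.inr (Dvd.dvd.mul_right h ℓ)

end Fermat.Agent.DS.Port.PortF1
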