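/-
GATE-N / S48-PORT (helper69): **the diamond family `DiaSpec` at the analytic Weber data, and the
frozen statement S48 at every level, UNCONDITIONALLY.**

* `diaSpec M hM : PortF1.DiaSpec (Fermat.Agent.DS.P1.WeberDataInst.weberData M hM)` from helper45's `diaX1 M hM`
  (`DS/P1/DiaInst.lean`: `diaX1_comm`, `diaX1_of_mem_fullC`, `coe_diaX1`, `realK_diaX1K`) and
  helper71's base change `PortInstP1.realCL_bcG` (`DS/P1/PortInstP1.lean`);
* `hPort23 : ` the `hPort` binder of `DS/N6/S48Port.s48At_of_port_only23`, with Igusa's degree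
  statement from helper66's `IgusaCycCoreH.igusaAt_thm`;
* `s48At_thm : ∀ N [NeZero N], Top.SmallPrimes.S48At N`.
-/
import Mathlib
import Fermat.Agent.DS.Port.PortF1
import Fermat.Agent.DS.N6.S48Port
import Fermat.Agent.DS.P1.DiaInst
import Fermat.Agent.DS.P1.PortInstP1
import Fermat.Agent.DS.P2.IgusaCycCoreH

set_option autoImplicit false
set_option linter.style.haveILetI false
set_option linter.unusedSectionVars false

open UpperHalfPlane Complex AlgebraicCurve ModularCurve CongruenceSubgroup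
open scoped MatrixGroups

noncomputable section

namespace Fermat.Agent.DS.Port.DiaSpecInst

open Fermat.Agent.S24 Fermat.Agent.S24_helper82 Fermat.Agent.S24_helper62
open Fermat.Agent.DS.P0 Fermat.Agent.DS.P1.RealizeF1
open Fermat.Agent.DS.P3 Fermat.Agent.DS.P3.Desc1G
open Fermat.Agent.DS.P5.KumType1
open Fermat.Agent.DS.P1.DiaInst Fermat.Agent.DS.P1.PortInstP1
open Fermat.Agent.DS.Port.PlugTest Fermat.Agent.DS.Port.PortF1

attribute [local instance] Fermat.Agent.GJ.EigAsm.algKbC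

/-- `ℚ̄` -/
local notation "Kb" => AlgebraicClosure ℚ

variable (M : ℕ) [NeZero M]

/-! ### The representatives in `Γ₀(M)` -/

/-- a representative in `Γ₀(M)` with lower right entry `≡ d⁻¹` (upper left entry `≡ d`) -/
def sig (d : (ZMod M)ˣ) : SL(2, ℤ) := Coh1.sigmaOf d⁻¹

theorem sig_dvd (d : (ZMod M)ˣ) : (M : ℤ) ∣ sig M d 1 0 := Coh1.sigmaOf_dvd _

theorem sig_cast (d : (ZMod M)ˣ) :
    ((sig M d 1 1 : ℤ) : ZMod M) = ((d⁻¹ : (ZMod M)ˣ) : ZMod M) := Coh1.sigmaOf_cast _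

theorem sig_cast10 (d : (ZMod M)ˣ) : ((sig M d 1 0 : ℤ) : ZMod M) = 0 :=
  (ZMod.intCast_zmod_eq_zero_iff_dvd _ _).mpr (sig_dvd M d)

theorem sig_mem (d : (ZMod M)ˣ) : sig M d ∈ Gamma0 M := by
  rw [Gamma0_mem]
  exact sig_cast10 M d

theorem sig_cast00 (d : (ZMod M)ˣ) : ((sig M d 0 0 : ℤ) : ZMod M) = (d : ZMod M) := by
  have hdet : (sig M d 0 0 : ℤ) * sig M d 1 1 - sig M d 0 1 * sig M d 1 0 = 1 := by
    have := (sig M d).det_coe
    rwa [Matrix.det_fin_two] at this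
  have h := congrArg (Int.cast : ℤ → ZMod M) hdet
  push_cast at h
  rw [sig_cast, sig_cast10, mul_zero, sub_zero] at h
  calc ((sig M d 0 0 : ℤ) : ZMod M)
      = ((sig M d 0 0 : ℤ) : ZMod M) * (((d⁻¹ : (ZMod M)ˣ) : ZMod M) * (d : ZMod M)) := by
        rw [← Units.val_mul, inv_mul_cancel, Units.val_one, mul_one]
    _ = (d : ZMod M) := by rw [← mul_assoc, h, one_mul]

/-! ### The diamond family -/

variable (hM : 1 < M)

/-- `diaX1` and `diaX1K` through the identification `FL (F1 M) ≃ F1C ℚ̄ M` -/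
theorem eKL_diaX1 (d : (ZMod M)ˣ) (u : FL (F1 M)) :
    eKL M (diaX1 M hM d u) = diaX1K M hM d (eKL M u) := by
  apply Subtype.ext
  rw [coe_eKL, coe_diaX1]
  rfl

/-- (P1e) in the `ℚ̄`-form -/
theorem realKL_diaX1 (d : (ZMod M)ˣ) (u : FL (F1 M)) :
    realKL (Fermat.Agent.DS.P1.WeberDataInst.weberData M hM) (diaX1 M hM d u)
      = compM (sig M d) (realKL (Fermat.Agent.DS.P1.WeberDataInst.weberData M hM) u) := by
  rw [realKL_apply, realKL_apply, eKL_diaX1]
  exact realK_diaX1K M hM (sig_mem M d) (sig_cast00 M d) (eKL M u)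

theorem realC_eq_realCL (D : WeberData M) : PlugTest.realC D = realCL D := rfl

/-- **the diamond family at the analytic Weber data** -/
def diaSpec : DiaSpec (Fermat.Agent.DS.P1.WeberDataInst.weberData M hM) where
  dia := diaX1 M hM
  comm := fun d σ x => diaX1_comm M hM d σ x
  fixJ := fun d x hx => by
    rw [diaX1_of_mem_fullC M hM d x (hx ▸ jqModCd_mem_full Kb M dvd_rfl)]
    exact hx
  σ := sig M
  σ_dvd := sig_dvd M
  σ_cast := sig_cast M
  real := fun d u => by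
    rw [realC_eq_realCL]
    exact hHND_of_realKL (Fermat.Agent.DS.P1.WeberDataInst.weberData M hM) (realKL_diaX1 M hM) d u

/-! ### The port and S48 -/

/-- **the `Γ₁(M)` port, unconditionally** (`5 ≤ M`, `2 ∣ M ∨ 3 ∣ M`) -/
theorem portExport1_thm {M : ℕ} [NeZero M] {p : ℕ} [Fact p.Prime] (hM : 5 ≤ M)
    (h6 : 2 ∣ M ∨ 3 ∣ M) : Fermat.Agent.DS.N3.Theta.PortExport1 M p :=
  portExport1_F1 hM h6 (Fermat.Agent.DS.P1.WeberDataInst.weberData M (by omega)) (diaSpec M (by omega))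
    (fun q hq hqM => by
      haveI : Fact q.Prime := ⟨hq⟩
      exact Fermat.Agent.DS.P2.IgusaCycCoreH.igusaAt_thm hqM)

/-- **the `hPort` binder of `DS/N6/S48Port.s48At_of_port_only23`** -/
theorem hPort23 :
    ∀ (N : ℕ) [NeZero N], (2 ∣ N ∨ 3 ∣ N) → ∃ ℓ₁ : ℕ,
      ∀ (ℓ : ℕ) [Fact ℓ.Prime] [NeZero (N * ℓ)], ℓ₁ ≤ ℓ → ¬ ℓ ∣ N →
        Fermat.Agent.DS.N3.Theta.PortExport1 (N * ℓ) ℓ := by
  intro N _ h6
  refine ⟨5, fun ℓ _ _ hℓ5 _ => ?_⟩
  have hN : 1 ≤ N := Nat.one_le_iff_ne_zero.mpr (NeZero.ne N)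
  have hM5 : 5 ≤ N * ℓ := le_trans hℓ5 (Nat.le_mul_of_pos_left ℓ hN)
  refine portExport1_thm hM5 ?_
  rcases h6 with h | h
  · exact Or.inl (Dvd.dvd.mul_right h ℓ)
  · exact Or.inr (Dvd.dvd.mul_right h ℓ)

/-- **Frozen S48 at every level.** -/
theorem s48At_thm : ∀ (N : ℕ) [NeZero N], Fermat.Agent.DS.Top.SmallPrimes.S48At N :=
  Fermat.Agent.DS.N6.s48At_of_port_only23 hPort23

end Fermat.Agent.DS.Port.DiaSpecInst
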