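import Mathlib
import Fermat.Agent.DS.Port.PlugTest
import Fermat.Agent.DS.P3.IntDictE1

/-!
# GATE-N / S48-PORT: the three DICT binders of `PlugTest.portExport1_of_open_leaves`, discharged

helper69's `portExport1_of_open_leaves` states the dictionaries on
`realC D : ↥(laurentBaseChange ℂ (F1 M)) →+* Mer` (`= real1C D ∘ equivOfEq`).  The landed instances
(`IntDictInst.intDict1`, `DictCuspInst.cuspDict1`, `IntDictInst.e1_1`) live on `F1C ℂ M`; the two
carriers are EQUAL intermediate fields of `ℂ((q))`, so any statement transports by `subst`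
(`transport_of_eq`).

* `jC1 M`, `intDictC D`, `cuspDictC D`, `e1C D` : the binders `jC hI hC hE1` of
  `portExport1_of_open_leaves`;
* `portExport1_of_open_leaves_dict` : the port with the three DICT binders removed (`5 ≤ M`).
-/

set_option autoImplicit false
set_option linter.unusedSectionVars false

open UpperHalfPlane Complex AlgebraicCurve ModularCurve TensorProduct CongruenceSubgroup
  ModularCurve.Period
open scoped MatrixGroups

noncomputable section

namespace Fermat.Agent.DS.Port.DictPlug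

open Fermat.Agent.S24 Fermat.Agent.S24_helper82 Fermat.Agent.GJ.HeckeMer Fermat.Agent.GJ.KumGroup
open Fermat.Agent.DS.P3.KumCoreG Fermat.Agent.DS.P3.EigAsmG
open Fermat.Agent.DS.P0 Fermat.Agent.DS.P1.RealizeF1
open Fermat.Agent.DS.P3.PDiv1 Fermat.Agent.DS.P3.DictCuspInst Fermat.Agent.DS.P3.IntDictInst
open Fermat.Agent.DS.P5 Fermat.Agent.DS.P5.KumType1 Fermat.Agent.DS.P5.PortExport1
open Fermat.Agent.DS.P3.Desc1G Fermat.Agent.DS.P3.EigDescG
open Fermat.Agent.DS.Port.PlugTest Fermat.Agent.DS.Port.PlugP2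

/-- **transport of any statement along an equality of subfields of `ℂ((q))`** -/
theorem transport_of_eq
    {P : ∀ F : IntermediateField ℂ (LaurentSeries ℂ), (↥F →+* Mer) → ↥F → Prop}
    {F F' : IntermediateField ℂ (LaurentSeries ℂ)} (h : F' = F) (real : ↥F →+* Mer) (jF : ↥F)
    (hP : P F real jF) :
    P F' (real.comp ((IntermediateField.equivOfEq h : ↥F' ≃ₐ[ℂ] ↥F) : ↥F' →+* ↥F))
      ((IntermediateField.equivOfEq h).symm jF) := by
  subst h
  have e1 : (IntermediateField.equivOfEq (rfl : F' = F')) = AlgEquiv.refl :=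
    IntermediateField.equivOfEq_rfl F'
  rw [e1]
  exact hP

variable {M : ℕ} [NeZero M]

/-- the element `j` of `F1 M ⊗ ℂ` -/
def jC1 (M : ℕ) [NeZero M] : ↥(laurentBaseChange ℂ (F1 M)) := (eC M).symm (j1C M)

/-- `hI` of `portExport1_of_open_leaves` -/
theorem intDictC (D : WeberData M) (hM : 4 ≤ M) :
    IntDict (Gamma1 M) (realC D) (jC1 M) :=
  transport_of_eq (P := fun _ real jF => IntDict (Gamma1 M) real jF)
    (laurentBaseChange_F1 ℂ M) (realR D) (j1C M) (intDict1 D hM)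

/-- `hC` of `portExport1_of_open_leaves` -/
theorem cuspDictC (D : WeberData M) (hM : ¬ M ∣ 4) :
    CuspDict (Gamma1 M) (realC D) (jC1 M) :=
  transport_of_eq (P := fun _ real jF => CuspDict (Gamma1 M) real jF)
    (laurentBaseChange_F1 ℂ M) (realR D) (j1C M) (cuspDict1 D hM)

/-- `hE1` of `portExport1_of_open_leaves` -/
theorem e1C (D : WeberData M) : Fermat.Agent.DS.P3.FinC1.E1 (realC D) :=
  transport_of_eq (P := fun _ real _ => Fermat.Agent.DS.P3.FinC1.E1 real)
    (laurentBaseChange_F1 ℂ M) (realR D) (j1C M) (e1_1 D)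

/-- **The `Γ₁(M)` port from its open leaves, DICT discharged.** -/
theorem portExport1_of_open_leaves_dict {p : ℕ} [Fact p.Prime]
    (hM5 : 5 ≤ M) (h6 : 2 ∣ M ∨ 3 ∣ M)
    (D : WeberData M)
    (hIG : ∀ ℓ : ℕ, ℓ.Prime → ¬ ℓ ∣ M * p → ∀ A : ValuationSubring Kb, A.LiesOverPrime ℓ →
      IgusaDeg M A)
    (dia : (ZMod M)ˣ → (FL (F1 M) ≃ₐ[Kb] FL (F1 M)))
    (hdG : ∀ u, DiaComm (dia u))
    (hdI : ∀ (q : ℕ) (hq : q.Prime) (hqMp : ¬ q ∣ M * p) (A : ValuationSubring Kb),
      A.LiesOverPrime q →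
        Fermat.Agent.DS.P4.DiaInt (F1 M) (diaP dia hq (not_dvd_left_of_not_dvd_mul hqMp)) A)
    (hHND : ∀ (d : (ZMod M)ˣ) (u : FL (F1 M)),
      realQ (bcG (F1 M)) (realC D) (dia d u) =
        Fermat.Agent.DS.P3.HeckeMerTriple.merD d (realQ (bcG (F1 M)) (realC D) u))
    (hM : ∀ (q : ℕ) (hq : q.Prime) (hqM : ¬ q ∣ M), HNMem1 q (diaP dia hq hqM))
    (hD : ∀ (q : ℕ) (hq : q.Prime) (hqM : ¬ q ∣ M), HNDiv1 p q (diaP dia hq hqM))
    (hHNT : ∀ (ℓ : ℕ) (hℓ : ℓ.Prime) (hℓMp : ¬ ℓ ∣ M * p) (u : FL (F1 M)), u ≠ 0 →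
      ∃ Tu : FL (F1 M),
        ((Tu : FL (F1 M)) : LaurentSeries Kb) =
          @hn1Series (F1 M) ℓ ⟨hℓ.ne_zero⟩
            (diaP dia hℓ (not_dvd_left_of_not_dvd_mul hℓMp)) u ∧
        realQ (bcG (F1 M)) (realC D) Tu =
          @Fermat.Agent.DS.P3.HeckeMerTriple.merT M _ ℓ ⟨hℓ⟩
            (not_dvd_left_of_not_dvd_mul hℓMp) (realQ (bcG (F1 M)) (realC D) u)) :
    Fermat.Agent.DS.N3.Theta.PortExport1 M p := by
  have hM4 : ¬ M ∣ 4 := fun h => by
    have := Nat.le_of_dvd (by norm_num) h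
    omega
  exact portExport1_of_open_leaves (by omega) h6 D hIG (jC1 M) (intDictC D (by omega))
    (cuspDictC D hM4) (e1C D) dia hdG hdI hHND hM hD hHNT

end Fermat.Agent.DS.Port.DictPlug
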