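/-
GATE-N / S48-PORT-PLUGTEST, leaf G4 (DIA-INT) closed (helper67): the `hdI` binder of helper69's
`PlugTest2.portExport1_of_open_leaves2` VERBATIM at `F₀ := F1 M`, from

* `D : WeberData M`   (only for `IsGen ℚ̄ j`: finiteness of `ℚ̄(X₁(M))` over `ℚ̄(j(q^M))`),
* `hIG`               (the Igusa degree statement, the SAME binder as in `portExport1_of_open_leaves2`),
* `hjE`               (every diamond fixes `jE = j(q^M)`, the `j`-invariant of `𝔾ₘ/q^{Mℤ}`),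

via `DS/P2/DiaIntOfHdeg.diaInt2_F1`; and the port with `hdI` replaced by `hjE`.
-/
import Mathlib
import Fermat.Agent.DS.Port.PlugTest2
import Fermat.Agent.DS.P2.DiaIntOfHdeg

set_option autoImplicit false
set_option linter.style.haveILetI false
set_option linter.unusedSectionVars false

open AlgebraicCurve ModularCurve

noncomputable section

namespace Fermat.Agent.DS.Port.PlugDiaInt

open Fermat.Agent.S24 Fermat.Agent.GJ.KumGroup Fermat.Agent.DS.P0 Fermat.Agent.DS.P1.RealizeF1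
open Fermat.Agent.DS.P5 Fermat.Agent.DS.P5.KumType1 Fermat.Agent.DS.P5.PortExport1
open Fermat.Agent.DS.Port.PlugP2 Fermat.Agent.DS.Port.PlugTest Fermat.Agent.DS.Port.PlugTest2

variable {M : ℕ} [NeZero M]

/-- **leaf G4 (DIA-INT)**: the `hdI` binder of `portExport1_of_open_leaves2` from Igusa + "the
diamonds fix `j(q^M)`". -/
theorem hdI_F1 {p : ℕ} (D : WeberData M)
    (hIG : ∀ ℓ : ℕ, ℓ.Prime → ¬ ℓ ∣ M * p → ∀ A : ValuationSubring Kb, A.LiesOverPrime ℓ →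
      IgusaDeg M A)
    (dia : (ZMod M)ˣ → (FL (F1 M) ≃ₐ[Kb] FL (F1 M)))
    (hjE : ∀ (u : (ZMod M)ˣ) (x : FL (F1 M)),
      (x : LaurentSeries Kb) = qExpand Kb M (jqModC Kb) →
        ((dia u x : FL (F1 M)) : LaurentSeries Kb) = qExpand Kb M (jqModC Kb)) :
    ∀ (q : ℕ) (hq : q.Prime) (hqMp : ¬ q ∣ M * p) (A : ValuationSubring Kb),
      A.LiesOverPrime q →
        Fermat.Agent.DS.P4.DiaInt2 (F1 M) (diaP dia hq (not_dvd_left_of_not_dvd_mul hqMp)) A := by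
  intro q hq hqMp A hA
  haveI : IsGen Kb (j1K M) := isGen_j1 D
  exact Fermat.Agent.DS.P2.DiaIntOfHdeg.diaInt2_F1 M A (j1K M) (hIG q hq hqMp A hA) _
    (hjE _)

/-- **The `Γ₁(M)` port from its open leaves, (DIA-INT) discharged**: `hdI` of
`portExport1_of_open_leaves2` replaced by `hjE`. -/
theorem portExport1_of_open_leaves3 {p : ℕ} [Fact p.Prime] (h6 : 2 ∣ M ∨ 3 ∣ M)
    (D : WeberData M)
    (hIG : ∀ ℓ : ℕ, ℓ.Prime → ¬ ℓ ∣ M * p → ∀ A : ValuationSubring Kb, A.LiesOverPrime ℓ →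
      IgusaDeg M A)
    (dia : (ZMod M)ˣ → (FL (F1 M) ≃ₐ[Kb] FL (F1 M)))
    (hdG : ∀ u, DiaComm (dia u))
    (hjE : ∀ (u : (ZMod M)ˣ) (x : FL (F1 M)),
      (x : LaurentSeries Kb) = qExpand Kb M (jqModC Kb) →
        ((dia u x : FL (F1 M)) : LaurentSeries Kb) = qExpand Kb M (jqModC Kb))
    (hM : ∀ (q : ℕ) (hq : q.Prime) (hqM : ¬ q ∣ M), HNMem1 q (diaP dia hq hqM))
    (hD : ∀ (q : ℕ) (hq : q.Prime) (hqM : ¬ q ∣ M), HNDiv1 p q (diaP dia hq hqM))
    (hE : EIG1Prime (F1 M) p dia) :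
    Fermat.Agent.DS.N3.Theta.PortExport1 M p :=
  portExport1_of_open_leaves2 h6 D hIG dia hdG (hdI_F1 D hIG dia hjE) hM hD hE

end Fermat.Agent.DS.Port.PlugDiaInt
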