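/-
GATE-N / S48-PORT (helper69): **frozen S48 at every level from Igusa + DIA only.**

`s48At_of_igusa_dia` : `∀ N, Top.SmallPrimes.S48At N` (= the frozen statement S48, helper52) from

* Igusa's degree statement `IgusaAt M q` at every level `M ≥ 5` and every prime `q ∤ M`,
* a diamond family `DiaSpec (weberData M)` at every level `M > 1`,

through `DS/Port/PortF1.hPort23_of_igusa_dia` and helper51's `DS/N6/S48Port.s48At_of_port_only23`
(Chebotarev `chebInputs` of helper82 plugged, small primes by helper52/helper10).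
-/
import Mathlib
import Fermat.Agent.DS.Port.PortF1
import Fermat.Agent.DS.N6.S48Port

set_option autoImplicit false

namespace Fermat.Agent.DS.Port.S48OfIgusaDia

open Fermat.Agent.DS.Port.PortF1

/-- **Frozen S48 from Igusa + DIA.** -/
theorem s48At_of_igusa_dia
    (hIG : ∀ (M : ℕ) [NeZero M], 5 ≤ M → ∀ q : ℕ, q.Prime → ¬ q ∣ M →
      Fermat.Agent.DS.P2.K18sPortF1.IgusaAt M q)
    (hΔ : ∀ (M : ℕ) [NeZero M] (hM : 1 < M),
      Nonempty (DiaSpec (Fermat.Agent.DS.P1.weberData M hM))) :
    ∀ (N : ℕ) [NeZero N], Fermat.Agent.DS.Top.SmallPrimes.S48At N :=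
  Fermat.Agent.DS.N6.s48At_of_port_only23 (hPort23_of_igusa_dia hIG hΔ)

end Fermat.Agent.DS.Port.S48OfIgusaDia
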